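import Mathlib
import Fermat.Agent.FF3.StepA.Defs

/-!
# PROGRAMME I, Step A: basic facts about a `Frame` (shared by blocks A4, A5)

* `norm_lt_one_iff_of_norm_le_one_iff`, `Frame.norm_e1_lt_one_iff`: nonunits of `O1` are the
  elements of norm `< 1`; units have norm `1`;
* `Frame.e1_jQ` : `e1 j_q = φ θ`;
* `Frame.norm_q_lt_one`, `Frame.charZero`, `Frame.norm_natCast_eq_one`;
* `Frame.phi_e1_const`, `Frame.phi_eq_self_of_mem_Kc`: `φ` fixes the constants.
-/

set_option autoImplicit false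
set_option linter.unusedSectionVars false
set_option synthInstance.maxHeartbeats 400000

noncomputable section

namespace Fermat.Agent.FF3.StepA4

open Fermat.Agent.FF3.StepA

section Generic

variable {F L : Type*} [Field F] [NormedField L]

/-- if the unit ball of `e` is the valuation subring `O`, the open unit ball is `O.nonunits` -/
theorem norm_lt_one_iff_of_norm_le_one_iff (e : F →+* L) (O : ValuationSubring F)
    (h : ∀ x, ‖e x‖ ≤ 1 ↔ x ∈ O) (x : F) : ‖e x‖ < 1 ↔ x ∈ O.nonunits := by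
  by_cases hx : x = 0
  · subst hx
    rw [map_zero, norm_zero]
    exact ⟨fun _ => Fermat.Agent.Val.zero_mem_nonunits O, fun _ => zero_lt_one⟩
  · rw [Fermat.Agent.Val.mem_nonunits_iff_inv_notMem O hx, ← h, map_inv₀, norm_inv, not_le]
    have hpos : 0 < ‖e x‖ := norm_pos_iff.mpr ((map_ne_zero e).mpr hx)
    rw [one_lt_inv₀ hpos]

theorem norm_eq_one_of_mem_of_notMem_nonunits (e : F →+* L) (O : ValuationSubring F)
    (h : ∀ x, ‖e x‖ ≤ 1 ↔ x ∈ O) {x : F} (hx : x ∈ O) (hx' : x ∉ O.nonunits) : ‖e x‖ = 1 := by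
  refine le_antisymm ((h x).2 hx) ?_
  by_contra hlt
  exact hx' ((norm_lt_one_iff_of_norm_le_one_iff e O h x).1 (not_le.mp hlt))

end Generic

open AlgebraicCurve ModularCurve IsLocalRing Fermat.Agent.Red Fermat.Agent.X0 Fermat.Agent.Hecke
  Fermat.Agent.Jac Fermat.Agent.Val Fermat.Agent.BR Fermat.Agent.BR.SS Fermat.Agent.BR.S0
  Fermat.Agent.BR.TwoVal Fermat.Agent.BR.TwoValInst Fermat.Agent.BR.ConstRedTwo
  Fermat.Agent.BR.Inst.SpecIso Fermat.Agent.BR2.NormResidueModular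
  Fermat.Agent.BR.S0.RedModular

variable {M q : ℕ} [NeZero M] [hq : Fact q.Prime]
  {B : ValuationSubring (AlgebraicClosure ℚ)} [IsAlgClosed (ResidueField B)]
  [CharP (ResidueField B) q]
  {hB : B.LiesOverPrime q}
  {L : Type} [NormedField L] (Fr : Frame M q B hB L)

theorem norm_e1_lt_one_iff (x : Fb (M * q)) : ‖Fr.e1 x‖ < 1 ↔ x ∈ (O1 M B hB).nonunits :=
  norm_lt_one_iff_of_norm_le_one_iff Fr.e1 _ Fr.norm_le_one_iff x

theorem norm_e1_eq_one {x : Fb (M * q)} (hx : x ∈ O1 M B hB) (hx' : x ∉ (O1 M B hB).nonunits) :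
    ‖Fr.e1 x‖ = 1 :=
  norm_eq_one_of_mem_of_notMem_nonunits Fr.e1 _ Fr.norm_le_one_iff hx hx'

/-- `e1 j_q = φ θ` -/
theorem e1_jQ : Fr.e1 (jQ M q) = Fr.φ Fr.theta := by
  have h := Fr.e1_beta (jBarD M 1 (one_dvd M))
  rw [Fermat.Agent.Hecke.AL.heckeBetaBar_jBarD M q 1 (one_dvd M),
    Fermat.Agent.Hecke.AL.heckeAlphaBar_jBarD M q 1 (one_dvd M)] at h
  exact h

theorem norm_theta_le_one : ‖Fr.theta‖ ≤ 1 := (Fr.norm_le_one_iff _).2 (jOne_mem_O1 B hB)

theorem norm_phi_theta_le_one : ‖Fr.φ Fr.theta‖ ≤ 1 := by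
  rw [Fr.norm_phi]; exact norm_theta_le_one Fr

include Fr in
/-- `‖q‖ < 1` -/
theorem norm_q_lt_one : ‖(q : L)‖ < 1 := by
  have h := (norm_e1_lt_one_iff Fr ((q : ℕ) : Fb (M * q))).2 (TwoValQ.q_mem_nonunits_O1 B hB)
  rwa [map_natCast] at h

include Fr in
theorem charZero : CharZero L :=
  charZero_of_injective_ringHom Fr.e1.injective

include Fr in
theorem q_ne_zero : (q : L) ≠ 0 := by
  have := charZero Fr
  exact Nat.cast_ne_zero.mpr hq.out.ne_zero

end Fermat.Agent.FF3.StepA4
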