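import Mathlib
import Fermat.Agent.BR.KronCong

/-!
# PROGRAMME I, Step A, block (A4): Kronecker's congruence in an ultrametric normed field

Abstract form.  `L` an ultrametric normed field, `q` a prime, `θ θ' : L` of norm `≤ 1` with
`Φ_q(θ, θ') = 0` (modular polynomial of `BR/KronPoly.lean`) and `‖θ' ^ q - θ‖ = 1`.  Then
`Φ_q(inner = θ, outer = X) = (X - θ') · P` with `P` monic of degree `q` and
`P ≡ X ^ q - θ (mod q)` coefficientwise.  If moreover `φ : L →+* L` with `φ θ = θ'`,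
`Φ_q(θ', θ) = 0` and `θ ≠ φ θ'`, then `P ^ φ (θ) = 0`.
-/

set_option autoImplicit false

noncomputable section

namespace Fermat.Agent.FF3.StepA4

open Polynomial Fermat.Agent.BR.Kron

section Generic

variable {L : Type*} [NormedField L] [IsUltrametricDist L]

theorem norm_sub_le_max_norm (a b : L) : ‖a - b‖ ≤ max ‖a‖ ‖b‖ := by
  have h := IsUltrametricDist.norm_add_le_max a (-b)
  rwa [← sub_eq_add_neg, norm_neg] at h

/-- ultrametric bound for a finite sum -/
theorem norm_sum_le_of_forall_le {ι : Type*} (s : Finset ι) (f : ι → L) {c : ℝ} (hc : 0 ≤ c)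
    (h : ∀ i ∈ s, ‖f i‖ ≤ c) : ‖∑ i ∈ s, f i‖ ≤ c := by
  classical
  induction s using Finset.induction_on with
  | empty => simpa using hc
  | insert a s ha ih =>
    rw [Finset.sum_insert ha]
    refine (IsUltrametricDist.norm_add_le_max _ _).trans (max_le ?_ ?_)
    · exact h a (Finset.mem_insert_self a s)
    · exact ih fun i hi => h i (Finset.mem_insert_of_mem hi)

/-- evaluation of a polynomial with coefficients of norm `≤ c` at a point of norm `≤ 1` -/
theorem norm_eval_le {p : L[X]} {c : ℝ} (hc : 0 ≤ c) (hp : ∀ i, ‖p.coeff i‖ ≤ c) {x : L}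
    (hx : ‖x‖ ≤ 1) : ‖p.eval x‖ ≤ c := by
  rw [Polynomial.eval_eq_sum_range]
  refine norm_sum_le_of_forall_le _ _ hc fun i _ => ?_
  rw [norm_mul, norm_pow]
  calc ‖p.coeff i‖ * ‖x‖ ^ i ≤ c * 1 :=
        mul_le_mul (hp i) (pow_le_one₀ (norm_nonneg _) hx) (pow_nonneg (norm_nonneg _) _) hc
    _ = c := mul_one c

/-- integer polynomials evaluated at a point of norm `≤ 1` have norm `≤ 1` -/
theorem norm_eval_map_intCast_le_one (p : ℤ[X]) {x : L} (hx : ‖x‖ ≤ 1) :
    ‖(p.map (Int.castRingHom L)).eval x‖ ≤ 1 := by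
  refine norm_eval_le zero_le_one (fun i => ?_) hx
  rw [Polynomial.coeff_map, eq_intCast]
  exact IsUltrametricDist.norm_intCast_le_one L _

/-- **Integral division by a monic linear polynomial.** -/
theorem norm_coeff_le_of_X_sub_C_mul {a : L} (ha : ‖a‖ ≤ 1) {S T : L[X]} {c : ℝ}
    (hST : (X - C a) * S = T) (hT : ∀ i, ‖T.coeff i‖ ≤ c) : ∀ i, ‖S.coeff i‖ ≤ c := by
  have hc : 0 ≤ c := (norm_nonneg _).trans (hT 0)
  have hrec : ∀ i, S.coeff i = T.coeff (i + 1) + a * S.coeff (i + 1) := by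
    intro i
    rw [← hST, sub_mul, Polynomial.coeff_sub, Polynomial.coeff_X_mul, Polynomial.coeff_C_mul]
    ring
  have key : ∀ d i : ℕ, S.natDegree < i + d → ‖S.coeff i‖ ≤ c := by
    intro d
    induction d with
    | zero =>
      intro i hi
      rw [Polynomial.coeff_eq_zero_of_natDegree_lt (by simpa using hi), norm_zero]
      exact hc
    | succ d ih =>
      intro i hi
      have h1 : ‖S.coeff (i + 1)‖ ≤ c := ih (i + 1) (by omega)
      rw [hrec i]
      refine (IsUltrametricDist.norm_add_le_max _ _).trans (max_le (hT _) ?_)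
      rw [norm_mul]
      calc ‖a‖ * ‖S.coeff (i + 1)‖ ≤ 1 * c := mul_le_mul ha h1 (norm_nonneg _) zero_le_one
        _ = c := one_mul c
  intro i
  exact key (S.natDegree + 1) i (by omega)

end Generic

section Kron

set_option linter.unusedSectionVars false

variable {L : Type*} [NormedField L] [IsUltrametricDist L] (q : ℕ) [NeZero q]

/-- `Φ_q(inner = θ, outer = X)` -/
def phiAt (θ : L) : L[X] := (phiK q L).map (evalRingHom θ)

/-- `Ψ_q(inner = θ, outer = X)` -/
def psiAt (θ : L) : L[X] := (psiK q L).map (evalRingHom θ)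

theorem phiAt_monic (hq : q.Prime) (θ : L) : (phiAt q θ).Monic := (phiK_monic q hq L).map _

theorem phiAt_natDegree (hq : q.Prime) (θ : L) : (phiAt q θ).natDegree = q + 1 := by
  rw [phiAt, (phiK_monic q hq L).natDegree_map, phiK_natDegree q hq]

theorem eval_phiAt (θ y : L) : (phiAt q θ).eval y = (phiK q L).evalEval θ y :=
  Polynomial.map_evalRingHom_eval θ y _

theorem phiAt_eq (hq : q.Prime) (θ : L) :
    phiAt q θ = (X ^ q - C θ) * (X - C (θ ^ q)) + C (q : L) * psiAt q θ := by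
  rw [phiAt, phiK_eq q hq, psiAt]
  simp [Polynomial.map_add, Polynomial.map_mul, Polynomial.map_sub, Polynomial.map_pow]

/-- the coefficients of `Ψ_q(θ, X)` are integral -/
theorem norm_coeff_psiAt_le_one {θ : L} (hθ : ‖θ‖ ≤ 1) (i : ℕ) : ‖(psiAt q θ).coeff i‖ ≤ 1 := by
  rw [psiAt, psiK, Polynomial.coeff_map, Polynomial.coeff_map, Polynomial.coe_mapRingHom,
    Polynomial.coe_evalRingHom]
  exact norm_eval_map_intCast_le_one _ hθ

/-- base change of `Φ_q(θ, X)` along a ring endomorphism -/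
theorem phiAt_map (φ : L →+* L) (θ : L) : (phiAt q θ).map φ = phiAt q (φ θ) := by
  rw [phiAt, phiAt, phiK, Polynomial.map_map, Polynomial.map_map, Polynomial.map_map]
  congr 1
  apply Polynomial.ringHom_ext'
  · exact RingHom.ext_int _ _
  · simp

theorem norm_coeff_X_pow_sub_C_le_one {θ : L} (hθ : ‖θ‖ ≤ 1) (i : ℕ) :
    ‖((X : L[X]) ^ q - C θ).coeff i‖ ≤ 1 := by
  rw [Polynomial.coeff_sub, Polynomial.coeff_X_pow, Polynomial.coeff_C]
  refine (norm_sub_le_max_norm _ _).trans (max_le ?_ ?_)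
  · split_ifs <;> simp
  · split_ifs
    · exact hθ
    · simp

/-- **Kronecker (abstract form).** -/
theorem exists_kron_factor (hq : q.Prime) {θ θ' : L} (hθ : ‖θ‖ ≤ 1) (hθ' : ‖θ'‖ ≤ 1)
    (hroot : (phiK q L).evalEval θ θ' = 0) (hunit : ‖θ' ^ q - θ‖ = 1) :
    ∃ P : L[X], P.Monic ∧ P.natDegree = q ∧ phiAt q θ = (X - C θ') * P ∧
      ∀ i : ℕ, ‖(P - (X ^ q - C θ)).coeff i‖ ≤ ‖(q : L)‖ := by
  have hG0 : (phiAt q θ).IsRoot θ' := by
    rw [Polynomial.IsRoot, eval_phiAt, hroot]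
  set P : L[X] := phiAt q θ /ₘ (X - C θ') with hP
  have hGP : (X - C θ') * P = phiAt q θ := Polynomial.mul_divByMonic_eq_iff_isRoot.mpr hG0
  have hPm : P.Monic :=
    (Polynomial.monic_X_sub_C θ').of_mul_monic_left (by rw [hGP]; exact phiAt_monic q hq θ)
  have hPd : P.natDegree = q := by
    have h1 := (Polynomial.monic_X_sub_C θ').natDegree_mul hPm
    rw [hGP, phiAt_natDegree q hq, Polynomial.natDegree_X_sub_C] at h1
    omega
  refine ⟨P, hPm, hPd, hGP.symm, ?_⟩
  -- `ε = θ^q - θ'` has norm `≤ ‖q‖`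
  have hε : ‖θ ^ q - θ'‖ ≤ ‖(q : L)‖ := by
    have h1 := hG0
    rw [Polynomial.IsRoot, phiAt_eq q hq] at h1
    simp only [Polynomial.eval_add, Polynomial.eval_mul, Polynomial.eval_sub, Polynomial.eval_pow,
      Polynomial.eval_X, Polynomial.eval_C] at h1
    have h2 : (θ' ^ q - θ) * (θ ^ q - θ') = (q : L) * (psiAt q θ).eval θ' := by
      linear_combination (-1 : L) * h1
    have h3 := congrArg norm h2
    rw [norm_mul, norm_mul, hunit, one_mul] at h3
    rw [h3]
    calc ‖(q : L)‖ * ‖(psiAt q θ).eval θ'‖ ≤ ‖(q : L)‖ * 1 :=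
          mul_le_mul_of_nonneg_left
            (norm_eval_le zero_le_one (norm_coeff_psiAt_le_one q hθ) hθ') (norm_nonneg _)
      _ = ‖(q : L)‖ := mul_one _
  -- the comparison
  have hT : (X - C θ') * (P - (X ^ q - C θ)) =
      C (q : L) * psiAt q θ - C (θ ^ q - θ') * (X ^ q - C θ) := by
    rw [mul_sub, hGP, phiAt_eq q hq, Polynomial.C_sub]
    ring
  refine norm_coeff_le_of_X_sub_C_mul hθ' hT fun i => ?_
  rw [Polynomial.coeff_sub, Polynomial.coeff_C_mul, Polynomial.coeff_C_mul]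
  refine (norm_sub_le_max_norm _ _).trans (max_le ?_ ?_)
  · rw [norm_mul]
    calc ‖(q : L)‖ * ‖(psiAt q θ).coeff i‖ ≤ ‖(q : L)‖ * 1 :=
          mul_le_mul_of_nonneg_left (norm_coeff_psiAt_le_one q hθ i) (norm_nonneg _)
      _ = ‖(q : L)‖ := mul_one _
  · rw [norm_mul]
    calc ‖θ ^ q - θ'‖ * ‖((X : L[X]) ^ q - C θ).coeff i‖ ≤ ‖(q : L)‖ * 1 :=
          mul_le_mul hε (norm_coeff_X_pow_sub_C_le_one q hθ i) (norm_nonneg _) (norm_nonneg _)
      _ = ‖(q : L)‖ := mul_one _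

/-- **Kronecker with the Frobenius lift (abstract form).** -/
theorem exists_kron_of_frob (hq : q.Prime) (φ : L →+* L) {θ : L} (hθ : ‖θ‖ ≤ 1)
    (hθ' : ‖φ θ‖ ≤ 1) (hroot : (phiK q L).evalEval θ (φ θ) = 0)
    (hroot' : (phiK q L).evalEval (φ θ) θ = 0) (hunit : ‖φ θ ^ q - θ‖ = 1)
    (hne : θ ≠ φ (φ θ)) :
    ∃ P : L[X], P.Monic ∧ P.natDegree = q ∧ (P.map φ).eval θ = 0 ∧
      ∀ i : ℕ, ‖(P - (X ^ q - C θ)).coeff i‖ ≤ ‖(q : L)‖ := by
  obtain ⟨P, hPm, hPd, hGP, hcong⟩ := exists_kron_factor q hq hθ hθ' hroot hunit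
  refine ⟨P, hPm, hPd, ?_, hcong⟩
  have h1 := congrArg (Polynomial.map φ) hGP
  rw [phiAt_map, Polynomial.map_mul, Polynomial.map_sub, Polynomial.map_X, Polynomial.map_C] at h1
  have h2 := congrArg (Polynomial.eval θ) h1
  rw [eval_phiAt, hroot', Polynomial.eval_mul, Polynomial.eval_sub, Polynomial.eval_X,
    Polynomial.eval_C] at h2
  rcases mul_eq_zero.mp h2.symm with h | h
  · exact absurd (sub_eq_zero.mp h) hne
  · exact h

end Kron

end Fermat.Agent.FF3.StepA4
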