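import Mathlib
import Fermat.Agent.FF3.StepA.Defs
import Fermat.Agent.FF3.StepA4.KronAbs
import Fermat.Agent.FF3.StepA4.FrameBasic

/-!
# PROGRAMME I, Step A, block (A4): Kronecker's congruence at the frame

`Frame.exists_kron` (literal of `FF3/StepA/Contract.lean`): the minimal polynomial of `θ = e1 j`
over `φ L` is `P ^ φ` with `P` monic of degree `q`, `P ≡ X ^ q - θ (mod q)` coefficientwise.
No hypothesis beyond the frame (in particular no `hqM`).
-/

set_option autoImplicit false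
set_option linter.unusedSectionVars false
set_option synthInstance.maxHeartbeats 400000

noncomputable section

namespace Fermat.Agent.FF3.StepA4

open Fermat.Agent.FF3.StepA Fermat.Agent.BR.Kron Fermat.Agent.Igusa

open AlgebraicCurve ModularCurve IsLocalRing Fermat.Agent.Red Fermat.Agent.X0 Fermat.Agent.Hecke
  Fermat.Agent.Jac Fermat.Agent.Val Fermat.Agent.BR Fermat.Agent.BR.SS Fermat.Agent.BR.S0
  Fermat.Agent.BR.TwoVal Fermat.Agent.BR.TwoValInst Fermat.Agent.BR.ConstRedTwo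
  Fermat.Agent.BR.Inst.SpecIso Fermat.Agent.BR2.NormResidueModular
  Fermat.Agent.BR.S0.RedModular

/-! ### The two roots in Laurent series -/

section Laurent

variable (q : ℕ) [NeZero q]

/-- `Φ_q(inner = j(s^q), outer = j(s)) = 0` over a domain containing a primitive `q`-th root of
unity. -/
theorem phiK_evalEval_jqN_jq (hq : q.Prime) {C : Type*} [CommRing C] [IsDomain C] {ζ : Cˣ}
    (hζ : IsPrimitiveRoot ζ q) :
    (phiK q (LaurentSeries C)).evalEval (jqNModC C q) (jqModC C) = 0 := by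
  rw [← J_one_unit_eq_jqNModC, ← eval_evY_phiK, evY_phiK q hq, Polynomial.eval_mul,
    normPoly_eq_prod q hζ, Polynomial.eval_prod]
  have h0 : (0 : ℕ) ∈ Finset.range q := Finset.mem_range.mpr hq.pos
  rw [Finset.prod_eq_zero h0, mul_zero]
  rw [pow_zero, scale_one_apply, Polynomial.eval_sub, Polynomial.eval_X, Polynomial.eval_C,
    sub_self]

theorem phiK_evalEval_eq_zero_of_injective {K K' : Type*} [CommRing K] [CommRing K']
    (g : K →+* K') (hg : Function.Injective g) {x y : K}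
    (h : (phiK q K').evalEval (g x) (g y) = 0) : (phiK q K).evalEval x y = 0 :=
  hg (by rw [map_phiK_evalEval, h, map_zero])

end Laurent

variable {M q : ℕ} [NeZero M] [hq : Fact q.Prime]
  {B : ValuationSubring (AlgebraicClosure ℚ)} [IsAlgClosed (ResidueField B)]
  [CharP (ResidueField B) q]
  {hB : B.LiesOverPrime q}

variable (M q) in
theorem coe_jOne : ((jOne M q : Fb (M * q)) : LaurentSeries Kb) = jqModC Kb := by
  rw [jOne, coe_jBarD, coeffEmb_jqN, jqNModC_one]

variable (M q) in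
theorem coe_jQ : ((jQ M q : Fb (M * q)) : LaurentSeries Kb) = jqNModC Kb q := by
  rw [jQ, coe_jBarD, coeffEmb_jqN]
  exact qExpand_congr (one_mul q) _

variable (M q) in
/-- `Φ_q(j, j_q) = 0` in `F̄_{Mq}` -/
theorem phiK_evalEval_jOne_jQ : (phiK q (Fb (M * q))).evalEval (jOne M q) (jQ M q) = 0 := by
  refine phiK_evalEval_eq_zero_of_injective q
    (algebraMap (Fb (M * q)) (LaurentSeries Kb)) (algebraMap (Fb (M * q)) _).injective ?_
  have h1 : algebraMap (Fb (M * q)) (LaurentSeries Kb) (jOne M q) = jqModC Kb := coe_jOne M q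
  have h2 : algebraMap (Fb (M * q)) (LaurentSeries Kb) (jQ M q) = jqNModC Kb q := coe_jQ M q
  rw [h1, h2]
  exact phiK_evalEval_jq q hq.out Kb

variable (M q) in
/-- `Φ_q(j_q, j) = 0` in `F̄_{Mq}` -/
theorem phiK_evalEval_jQ_jOne : (phiK q (Fb (M * q))).evalEval (jQ M q) (jOne M q) = 0 := by
  refine phiK_evalEval_eq_zero_of_injective q
    (algebraMap (Fb (M * q)) (LaurentSeries Kb)) (algebraMap (Fb (M * q)) _).injective ?_
  have h1 : algebraMap (Fb (M * q)) (LaurentSeries Kb) (jOne M q) = jqModC Kb := coe_jOne M q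
  have h2 : algebraMap (Fb (M * q)) (LaurentSeries Kb) (jQ M q) = jqNModC Kb q := coe_jQ M q
  rw [h1, h2]
  have hne : NeZero ((q : ℕ) : Kb) := ⟨Nat.cast_ne_zero.mpr hq.out.ne_zero⟩
  obtain ⟨ζ, hζ⟩ := HasEnoughRootsOfUnity.exists_primitiveRoot Kb q
  have hζu : IsUnit ζ := hζ.isUnit hq.out.ne_zero
  obtain ⟨u, rfl⟩ := hζu
  exact phiK_evalEval_jqN_jq q hq.out (IsPrimitiveRoot.coe_units_iff.mp hζ)

/-! ### The unit `s = j - j_q^q` at `O1` (no `hqM`) -/

theorem sKron_mem_O1 : sKron M q ∈ O1 M B hB :=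
  sub_mem (jOne_mem_O1 B hB) (pow_mem (jQ_mem_O1 B hB) q)

theorem res1_sKron_ne_zero : res1 M B hB ⟨sKron M q, sKron_mem_O1⟩ ≠ 0 := by
  have h : (⟨sKron M q, sKron_mem_O1⟩ : O1 M B hB) =
      ⟨jOne M q, jOne_mem_O1 B hB⟩ - ⟨jQ M q, jQ_mem_O1 B hB⟩ ^ q := rfl
  rw [h, map_sub, map_pow, res1_jOne, res1_jQ, ← pow_mul]
  intro h0
  have heq : jqModC (ResidueField B) = jqModC (ResidueField B) ^ (q * q) := sub_eq_zero.1 h0
  have hord := congrArg HahnSeries.order heq
  rw [HahnSeries.order_pow, order_jqModC] at hord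
  have hq2 : 2 ≤ q := hq.out.two_le
  have h4 : (4 : ℤ) ≤ ((q * q : ℕ) : ℤ) := by
    have : 4 ≤ q * q := by nlinarith
    exact_mod_cast this
  simp only [nsmul_eq_mul, mul_neg, mul_one] at hord
  omega

theorem sKron_notMem_nonunits_O1' : sKron M q ∉ (O1 M B hB).nonunits := fun h =>
  res1_sKron_ne_zero ((mem_nonunits_O1_iff B hB sKron_mem_O1).1 h)

/-! ### The frame statement -/

section FrameFacts

variable {L : Type} [NormedField L] [CompleteSpace L] [IsUltrametricDist L]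
  (Fr : Frame M q B hB L)

theorem norm_phi_theta_pow_sub_theta : ‖Fr.φ Fr.theta ^ q - Fr.theta‖ = 1 := by
  have h := norm_e1_eq_one Fr (sKron_mem_O1 (B := B) (hB := hB)) sKron_notMem_nonunits_O1'
  rw [sKron, map_sub, map_pow, e1_jQ] at h
  rw [← norm_neg, neg_sub]
  exact h

theorem norm_phi_theta_sub_theta_pow_lt : ‖Fr.φ Fr.theta - Fr.theta ^ q‖ < 1 := by
  have h := (norm_e1_lt_one_iff Fr (tKron M q)).2 (tKron_mem_nonunits_O1 B hB)
  rwa [tKron, map_sub, map_pow, e1_jQ] at h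

theorem theta_ne_phi_phi_theta : Fr.theta ≠ Fr.φ (Fr.φ Fr.theta) := by
  intro h
  -- `θ - (φθ)^q = φ (φθ - θ^q)`
  have h1 : Fr.φ (Fr.φ Fr.theta - Fr.theta ^ q) = Fr.theta - Fr.φ Fr.theta ^ q := by
    rw [map_sub, map_pow, ← h]
  have h2 := norm_phi_theta_pow_sub_theta Fr
  rw [← norm_neg, neg_sub, ← h1, Fr.norm_phi] at h2
  exact absurd h2 (norm_phi_theta_sub_theta_pow_lt Fr).ne

/-- (A-kron) **Kronecker's congruence at the frame** (literal of `Contract.lean`). -/
theorem Frame.exists_kron :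
    ∃ P : Polynomial L, P.Monic ∧ P.natDegree = q ∧
      (P.map Fr.φ).eval Fr.theta = 0 ∧
      ∀ i : ℕ, ‖(P - (Polynomial.X ^ q - Polynomial.C Fr.theta)).coeff i‖ ≤ ‖(q : L)‖ := by
  have hroot : (phiK q L).evalEval Fr.theta (Fr.φ Fr.theta) = 0 := by
    rw [← e1_jQ, Frame.theta, ← map_phiK_evalEval, phiK_evalEval_jOne_jQ, map_zero]
  have hroot' : (phiK q L).evalEval (Fr.φ Fr.theta) Fr.theta = 0 := by
    rw [← e1_jQ, Frame.theta, ← map_phiK_evalEval, phiK_evalEval_jQ_jOne, map_zero]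
  exact exists_kron_of_frob q hq.out Fr.φ (norm_theta_le_one Fr) (norm_phi_theta_le_one Fr)
    hroot hroot' (norm_phi_theta_pow_sub_theta Fr) (theta_ne_phi_phi_theta Fr)

end FrameFacts

end Fermat.Agent.FF3.StepA4
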